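import Mathlib
import Fermat.Agent.RT.UnivTraces
import Fermat.Agent.RT.TraceExt

/-!
# Intertwiners as equalisers of block diagonal actions

A rectangular matrix intertwines two actions exactly when their block diagonal sum agrees with its
conjugate by a shear.  Intertwining then passes to subrings, to Frobenius densities and to maps
of the universal ring.
-/

set_option autoImplicit false

noncomputable section

open IsLocalRing GaloisRep Matrix FermatAgent.GaloisBasic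

namespace FermatAgent.RT

variable {B : Type} [CommRing B] {s₁ s₂ : ℕ}

/-- The shear of a rectangular matrix. -/
def shear (J : Matrix (Fin s₂) (Fin s₁) B) : Matrix (Fin s₁ ⊕ Fin s₂) (Fin s₁ ⊕ Fin s₂) B :=
  fromBlocks 1 0 J 1

lemma shear_mul_neg (J : Matrix (Fin s₂) (Fin s₁) B) : shear J * shear (-J) = 1 := by
  simp [shear, fromBlocks_multiply]

/-- Conjugation by a shear. -/
def shearConj (𝒪 : Type) [CommRing 𝒪] [Algebra 𝒪 B] (J : Matrix (Fin s₂) (Fin s₁) B) :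
    Matrix (Fin s₁ ⊕ Fin s₂) (Fin s₁ ⊕ Fin s₂) B →ₐ[𝒪]
      Matrix (Fin s₁ ⊕ Fin s₂) (Fin s₁ ⊕ Fin s₂) B where
  toFun X := shear J * X * shear (-J)
  map_one' := by rw [Matrix.mul_one, shear_mul_neg]
  map_mul' X Y := by
    have h : shear (-J) * shear J = 1 := by simpa using shear_mul_neg (-J)
    calc shear J * (X * Y) * shear (-J) =
          shear J * X * (shear (-J) * shear J) * Y * shear (-J) := by
          rw [h]; simp only [Matrix.mul_assoc, Matrix.one_mul]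
      _ = _ := by simp only [Matrix.mul_assoc]
  map_zero' := by rw [Matrix.mul_zero, Matrix.zero_mul]
  map_add' X Y := by rw [Matrix.mul_add, Matrix.add_mul]
  commutes' o := by
    rw [← Algebra.commutes o (shear J), Matrix.mul_assoc, shear_mul_neg, Matrix.mul_one]

variable {𝒪 : Type} [CommRing 𝒪] [Algebra 𝒪 B]

lemma shearConj_fromBlocks (J : Matrix (Fin s₂) (Fin s₁) B) (a : Matrix (Fin s₁) (Fin s₁) B)
    (b : Matrix (Fin s₂) (Fin s₂) B) :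
    shearConj 𝒪 J (fromBlocks a 0 0 b) = fromBlocks a 0 (J * a - b * J) b := by
  show shear J * _ * shear (-J) = _
  simp [shear, fromBlocks_multiply, sub_eq_add_neg]

/-- **Intertwining is agreement with the conjugate.** -/
lemma shearConj_fromBlocks_eq_iff (J : Matrix (Fin s₂) (Fin s₁) B)
    (a : Matrix (Fin s₁) (Fin s₁) B) (b : Matrix (Fin s₂) (Fin s₂) B) :
    fromBlocks a 0 0 b = shearConj 𝒪 J (fromBlocks a 0 0 b) ↔ J * a = b * J := by
  rw [shearConj_fromBlocks, fromBlocks_inj]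
  exact ⟨fun h => sub_eq_zero.mp h.2.2.1.symm, fun h => ⟨rfl, rfl, by rw [h, sub_self], rfl⟩⟩

/-- The block diagonal sum of two actions of one algebra. -/
def blockSum {R : Type} [CommRing R] [Algebra 𝒪 R] (f₁ : R →ₐ[𝒪] Matrix (Fin s₁) (Fin s₁) B)
    (f₂ : R →ₐ[𝒪] Matrix (Fin s₂) (Fin s₂) B) :
    R →ₐ[𝒪] Matrix (Fin s₁ ⊕ Fin s₂) (Fin s₁ ⊕ Fin s₂) B where
  toFun x := fromBlocks (f₁ x) 0 0 (f₂ x)
  map_one' := by simp
  map_mul' x y := by simp [fromBlocks_multiply]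
  map_zero' := by simp
  map_add' x y := by simp [fromBlocks_add]
  commutes' o := by
    rw [AlgHom.commutes, AlgHom.commutes]
    simp [Algebra.algebraMap_eq_smul_one, ← fromBlocks_one, fromBlocks_smul]

lemma blockSum_apply {R : Type} [CommRing R] [Algebra 𝒪 R]
    (f₁ : R →ₐ[𝒪] Matrix (Fin s₁) (Fin s₁) B) (f₂ : R →ₐ[𝒪] Matrix (Fin s₂) (Fin s₂) B) (x : R) :
    blockSum f₁ f₂ x = fromBlocks (f₁ x) 0 0 (f₂ x) := rfl

/-- **Intertwining extends from traces to the universal ring.** -/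
theorem comm_of_trace {𝒪 : Type} [CommRing 𝒪] [IsDomain 𝒪] [IsDiscreteValuationRing 𝒪]
    [IsAdicComplete (maximalIdeal 𝒪) 𝒪] [Finite (ResidueField 𝒪)] {D : DefProblem 𝒪} {half : 𝒪}
    (h2 : 2 * half = 1) (hspan : Submodule.span (ResidueField 𝒪) (Set.range D.rbar) = ⊤)
    {c : GQ} (hc : c * c = 1) (htc : (D.univMat c).trace = 0) [Algebra 𝒪 B] [Finite B]
    (f₁ : D.UR →ₐ[𝒪] Matrix (Fin s₁) (Fin s₁) B) (f₂ : D.UR →ₐ[𝒪] Matrix (Fin s₂) (Fin s₂) B)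
    (J : Matrix (Fin s₂) (Fin s₁) B)
    (h : ∀ g, J * f₁ (D.univMat g).trace = f₂ (D.univMat g).trace * J) (x : D.UR) :
    J * f₁ x = f₂ x * J := by
  have : Finite (Matrix (Fin s₁ ⊕ Fin s₂) (Fin s₁ ⊕ Fin s₂) B) :=
    inferInstanceAs (Finite (Fin s₁ ⊕ Fin s₂ → Fin s₁ ⊕ Fin s₂ → B))
  refine (shearConj_fromBlocks_eq_iff (𝒪 := 𝒪) J _ _).mp (AlgHom.congr_fun
    (algHom_ext_of_trace D h2 hspan hc htc (blockSum f₁ f₂)
      ((shearConj 𝒪 J).comp (blockSum f₁ f₂)) fun g => ?_) x)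
  rw [AlgHom.comp_apply, blockSum_apply]
  exact (shearConj_fromBlocks_eq_iff J _ _).mpr (h g)

/-- The pair of two traces. -/
def TraceDet.pair {G T₁ T₂ : Type} [Group G] [CommRing T₁] [CommRing T₂] (D₁ : TraceDet G T₁)
    (D₂ : TraceDet G T₂) : TraceDet G (T₁ × T₂) where
  t g := (D₁.t g, D₂.t g)
  d := D₁.d.prod D₂.d
  t_one := Prod.ext D₁.t_one D₂.t_one
  t_mul g h := Prod.ext (D₁.t_mul g h) (D₂.t_mul g h)

/-- The determinant is one where the trace is constant. -/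
lemma TraceDet.d_eq_one {G T : Type} [Group G] [CommRing T] (D : TraceDet G T) {E : Type} [Ring E]
    (i : T →+* E) {half : E} (h2 : half * 2 = 1) {σ : G} (h : ∀ g, i (D.t (g * σ)) = i (D.t g)) :
    i (D.d σ) = 1 := by
  have h1 : i (D.t σ) = 2 := by
    rw [← one_mul σ, h, D.t_one, map_ofNat]
  have h3 := congrArg i (D.t_sq σ)
  rw [map_add, map_mul, map_mul, map_ofNat, h, h1] at h3
  have h4 : (2 : E) * i (D.d σ) = 2 := add_left_cancel (h3.trans (two_mul (2 : E)))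
  calc i (D.d σ) = half * (2 * i (D.d σ)) := by rw [← mul_assoc, h2, one_mul]
    _ = 1 := by rw [h4, h2]

/-- **Intertwining extends from Frobenius elements.** -/
theorem comm_of_frobenius {T₁ T₂ : Type} [CommRing T₁] [CommRing T₂] (D₁ : TraceDet GQ T₁)
    (D₂ : TraceDet GQ T₂) (Φ₁ : T₁ →+* Matrix (Fin s₁) (Fin s₁) B)
    (Φ₂ : T₂ →+* Matrix (Fin s₂) (Fin s₂) B) (J : Matrix (Fin s₂) (Fin s₁) B) {half : B}
    (h2 : half * 2 = 1) (I : ℕ → Ideal B) (hI : ∀ b, (∀ k, b ∈ I k) → b = 0)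
    (hc₁ : ∀ k, ∃ L : IntermediateField ℚ Qbar, FiniteDimensional ℚ L ∧
      ∀ σ ∈ L.fixingSubgroup, ∀ g i j, Φ₁ (D₁.t (g * σ)) i j - Φ₁ (D₁.t g) i j ∈ I k)
    (hc₂ : ∀ k, ∃ L : IntermediateField ℚ Qbar, FiniteDimensional ℚ L ∧
      ∀ σ ∈ L.fixingSubgroup, ∀ g i j, Φ₂ (D₂.t (g * σ)) i j - Φ₂ (D₂.t g) i j ∈ I k)
    (S : Finset ℕ)
    (hfrob : ∀ q : ℕ, q.Prime → q ∉ S → ∀ P : ValuationSubring Qbar, P.LiesOverPrime q →
      ∀ σ : GQ, P.IsFrobeniusAt σ q →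
        J * Φ₁ (D₁.t σ) = Φ₂ (D₂.t σ) * J ∧ J * Φ₁ (D₁.d σ) = Φ₂ (D₂.d σ) * J)
    (g : GQ) : J * Φ₁ (D₁.t g) = Φ₂ (D₂.t g) * J ∧ J * Φ₁ (D₁.d g) = Φ₂ (D₂.d g) * J := by
  suffices H : ∀ k, (J * Φ₁ (D₁.t g)).map (Ideal.Quotient.mk (I k)) =
        (Φ₂ (D₂.t g) * J).map (Ideal.Quotient.mk (I k)) ∧
      (J * Φ₁ (D₁.d g)).map (Ideal.Quotient.mk (I k)) =
        (Φ₂ (D₂.d g) * J).map (Ideal.Quotient.mk (I k)) by
    constructor <;> refine Matrix.ext fun i j => sub_eq_zero.mp (hI _ fun k => ?_) <;>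
      rw [← Ideal.Quotient.eq]
    · exact congrFun (congrFun (H k).1 i) j
    · exact congrFun (congrFun (H k).2 i) j
  intro k
  obtain ⟨L₁, hL₁, h₁⟩ := hc₁ k
  obtain ⟨L₂, hL₂, h₂⟩ := hc₂ k
  set π := Ideal.Quotient.mk (I k)
  let i₁ : T₁ →+* Matrix (Fin s₁) (Fin s₁) (B ⧸ I k) := π.mapMatrix.comp Φ₁
  let i₂ : T₂ →+* Matrix (Fin s₂) (Fin s₂) (B ⧸ I k) := π.mapMatrix.comp Φ₂
  let J' : Matrix (Fin s₂) (Fin s₁) (B ⧸ I k) := J.map π
  let e : T₁ × T₂ →+* Matrix (Fin s₁ ⊕ Fin s₂) (Fin s₁ ⊕ Fin s₂) (B ⧸ I k) :=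
    { toFun := fun x => fromBlocks (i₁ x.1) 0 0 (i₂ x.2)
      map_one' := by simp
      map_mul' := fun x y => by simp [fromBlocks_multiply]
      map_zero' := by simp
      map_add' := fun x y => by simp [fromBlocks_add] }
  let e' : T₁ × T₂ →+* Matrix (Fin s₁ ⊕ Fin s₂) (Fin s₁ ⊕ Fin s₂) (B ⧸ I k) :=
    (shearConj ℤ J').toRingHom.comp e
  have hmul : ∀ (a : Matrix (Fin s₁) (Fin s₁) B) (b : Matrix (Fin s₂) (Fin s₂) B),
      J' * a.map π = b.map π * J' ↔ (J * a).map π = (b * J).map π := fun a b => by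
    rw [Matrix.map_mul, Matrix.map_mul]
  have hfix : ∀ σ ∈ (L₁ ⊔ L₂).fixingSubgroup, ∀ g', e ((D₁.pair D₂).t (g' * σ)) =
      e ((D₁.pair D₂).t g') ∧ e ((D₁.pair D₂).d σ) = 1 := by
    intro σ hσ g'
    have e₁ : ∀ g'', i₁ (D₁.t (g'' * σ)) = i₁ (D₁.t g'') := fun g'' => Matrix.ext fun a b =>
      Ideal.Quotient.eq.mpr
        (h₁ σ (IntermediateField.fixingSubgroup_antitone le_sup_left hσ) g'' a b)
    have e₂ : ∀ g'', i₂ (D₂.t (g'' * σ)) = i₂ (D₂.t g'') := fun g'' => Matrix.ext fun a b =>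
      Ideal.Quotient.eq.mpr
        (h₂ σ (IntermediateField.fixingSubgroup_antitone le_sup_right hσ) g'' a b)
    have hh : ∀ (s : ℕ), algebraMap (B ⧸ I k) (Matrix (Fin s) (Fin s) (B ⧸ I k)) (π half) * 2 = 1 :=
      fun s => by
        rw [← map_ofNat (algebraMap (B ⧸ I k) (Matrix (Fin s) (Fin s) (B ⧸ I k))) 2,
          ← map_ofNat π 2, ← map_mul, ← map_mul, h2, map_one, map_one]
    refine ⟨?_, ?_⟩
    · show fromBlocks (i₁ _) 0 0 (i₂ _) = fromBlocks (i₁ _) 0 0 (i₂ _)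
      rw [show ((D₁.pair D₂).t (g' * σ)).1 = D₁.t (g' * σ) from rfl,
        show ((D₁.pair D₂).t (g' * σ)).2 = D₂.t (g' * σ) from rfl, e₁, e₂]
      rfl
    · show fromBlocks (i₁ (D₁.d σ)) 0 0 (i₂ (D₂.d σ)) = 1
      rw [D₁.d_eq_one i₁ (hh s₁) e₁, D₂.d_eq_one i₂ (hh s₂) e₂, fromBlocks_one]
  have := hL₁; have := hL₂
  have key := TraceDet.eq_of_frobenius (D₁.pair D₂) (D₁.pair D₂) e e' (L₁ ⊔ L₂) hfix
    (fun σ hσ g' => by
      obtain ⟨h3, h4⟩ := hfix σ hσ g'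
      exact ⟨congrArg (shearConj ℤ J') h3, (congrArg (shearConj ℤ J') h4).trans (map_one _)⟩)
    S (fun q hq hqS P hP σ hσ => by
      obtain ⟨h3, h4⟩ := hfrob q hq hqS P hP σ hσ
      exact ⟨(shearConj_fromBlocks_eq_iff (𝒪 := ℤ) J' _ _).mpr
          ((hmul _ _).mpr (congrArg (fun X => X.map π) h3)),
        (shearConj_fromBlocks_eq_iff (𝒪 := ℤ) J' _ _).mpr
          ((hmul _ _).mpr (congrArg (fun X => X.map π) h4))⟩)
    g
  exact ⟨(hmul _ _).mp ((shearConj_fromBlocks_eq_iff (𝒪 := ℤ) J' _ _).mp key.1),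
    (hmul _ _).mp ((shearConj_fromBlocks_eq_iff (𝒪 := ℤ) J' _ _).mp key.2)⟩

end FermatAgent.RT
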