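import Mathlib
import Fermat.Agent.RT.Restructure

/-!
# Maps between two twisted structures

A rectangular matrix commuting with two twists is linear for the twisted structures; its matrix in
the standard bases is multiplicative and unchanged where the twists are scalar.
-/

set_option autoImplicit false

noncomputable section

open IsLocalRing Matrix

namespace FermatAgent.RT.TwistMod

variable {O S : Type} [CommRing O] [CommRing S] [Algebra O S] {s₁ s₂ s₃ : ℕ}
  {θ₁ : S →ₐ[O] Matrix (Fin s₁) (Fin s₁) S} {θ₂ : S →ₐ[O] Matrix (Fin s₂) (Fin s₂) S}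
  {θ₃ : S →ₐ[O] Matrix (Fin s₃) (Fin s₃) S}

/-- A commuting rectangular matrix as a linear map of twisted modules. -/
def rectHom (J : Matrix (Fin s₂) (Fin s₁) S) (hJ : ∀ y, J * θ₁ y = θ₂ y * J) :
    TwistMod θ₁ →ₗ[S] TwistMod θ₂ where
  toFun v := of θ₂ (J *ᵥ (of θ₁).symm v)
  map_add' v w := by rw [map_add, mulVec_add, map_add]
  map_smul' y v := by
    obtain ⟨w, rfl⟩ := (of θ₁).surjective v
    show of θ₂ (J *ᵥ (θ₁ y *ᵥ w)) = of θ₂ (θ₂ y *ᵥ (J *ᵥ w))
    rw [mulVec_mulVec, mulVec_mulVec, hJ]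

variable [Module.Finite O S] (h₁ : Function.Surjective (coords θ₁))
  (h₂ : Function.Surjective (coords θ₂)) (h₃ : Function.Surjective (coords θ₃))

/-- The matrix of a commuting map in the standard bases of the twisted modules. -/
def newRect (J : Matrix (Fin s₂) (Fin s₁) S) (hJ : ∀ y, J * θ₁ y = θ₂ y * J) :
    Matrix (Fin s₂) (Fin s₁) S :=
  LinearMap.toMatrix' ((coordsEquiv θ₂ h₂).symm.toLinearMap.comp
    ((rectHom J hJ).comp (coordsEquiv θ₁ h₁).toLinearMap))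

/-- In twisted coordinates the new matrix of an intertwiner is the map itself. -/
lemma newRect_mulVec (J : Matrix (Fin s₂) (Fin s₁) S) (hJ : ∀ y, J * θ₁ y = θ₂ y * J)
    (c : Fin s₁ → S) :
    coords θ₂ (newRect h₁ h₂ J hJ *ᵥ c) = rectHom J hJ (coords θ₁ c) := by
  rw [newRect, LinearMap.toMatrix'_mulVec]
  exact (coordsEquiv θ₂ h₂).apply_symm_apply _

include h₂ in
/-- Matrices giving the same maps in twisted coordinates are equal. -/
lemma ext_of_coords {X Y : Matrix (Fin s₂) (Fin s₁) S}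
    (h : ∀ c, coords θ₂ (X *ᵥ c) = coords θ₂ (Y *ᵥ c)) : X = Y :=
  Matrix.mulVec_injective (funext fun c => (coordsEquiv θ₂ h₂).injective (h c))

/-- The new matrices of intertwiners multiply. -/
lemma newRect_mul (J : Matrix (Fin s₂) (Fin s₁) S) (hJ : ∀ y, J * θ₁ y = θ₂ y * J)
    (J' : Matrix (Fin s₃) (Fin s₂) S) (hJ' : ∀ y, J' * θ₂ y = θ₃ y * J')
    (hJJ' : ∀ y, (J' * J) * θ₁ y = θ₃ y * (J' * J)) :
    newRect h₂ h₃ J' hJ' * newRect h₁ h₂ J hJ = newRect h₁ h₃ (J' * J) hJJ' :=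
  ext_of_coords h₃ fun c => by
    rw [← mulVec_mulVec, newRect_mulVec, newRect_mulVec, newRect_mulVec]
    obtain ⟨v, hv⟩ := (of θ₁).surjective (coords θ₁ c)
    rw [← hv]
    show of θ₃ (J' *ᵥ (J *ᵥ v)) = of θ₃ ((J' * J) *ᵥ v)
    rw [mulVec_mulVec]

/-- An intertwining passes to the new matrices. -/
lemma newRect_comm (J : Matrix (Fin s₂) (Fin s₁) S) (hJ : ∀ y, J * θ₁ y = θ₂ y * J)
    (X₁ : Subalgebra.centralizer O (Set.range θ₁)) (X₂ : Subalgebra.centralizer O (Set.range θ₂))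
    (h : J * X₁.1 = X₂.1 * J) :
    newRect h₁ h₂ J hJ * newMat θ₁ h₁ X₁ = newMat θ₂ h₂ X₂ * newRect h₁ h₂ J hJ := by
  refine ext_of_coords h₂ fun c => ?_
  rw [← mulVec_mulVec, ← mulVec_mulVec, newRect_mulVec, newMat_mulVec, newMat_mulVec,
    newRect_mulVec]
  obtain ⟨v, hv⟩ := (of θ₁).surjective (coords θ₁ c)
  rw [← hv]
  show of θ₂ (J *ᵥ (X₁.1 *ᵥ v)) = of θ₂ (X₂.1 *ᵥ (J *ᵥ v))
  rw [mulVec_mulVec, mulVec_mulVec, h]

/-- Where the second twist is scalar, the matrix is unchanged. -/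
lemma newRect_map {B : Type} [CommRing B] (ψ : S →+* B)
    (hψ₂ : ∀ y, (θ₂ y).map ψ = algebraMap B (Matrix (Fin s₂) (Fin s₂) B) (ψ y))
    (J : Matrix (Fin s₂) (Fin s₁) S) (hJ : ∀ y, J * θ₁ y = θ₂ y * J) :
    (newRect h₁ h₂ J hJ).map ψ = J.map ψ := by
  ext i j
  have h1 := congrArg (fun v => ψ ((of θ₂).symm v i)) (newRect_mulVec h₁ h₂ J hJ (Pi.single j 1))
  simp only [map_coords θ₂ ψ hψ₂] at h1
  have h2 : (of θ₁).symm (coords θ₁ (Pi.single j 1)) = Pi.single j 1 := by simp [coords]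
  rw [← (of θ₁).apply_symm_apply (coords θ₁ (Pi.single j 1))] at h1
  simp only [rectHom, LinearMap.coe_mk, AddHom.coe_mk, LinearEquiv.symm_apply_apply, h2] at h1
  simpa using h1

end FermatAgent.RT.TwistMod
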