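import Mathlib
import Fermat.Agent.RT.Intertwine.Block
import Fermat.Agent.RT.Intertwine.Twist
import Fermat.Agent.RT.DiamondLevel

/-!
# Intertwiners of diamond data

A matrix intertwining the traces and determinants of two diamond data intertwines their tame
eigenvalues, hence the two twisted diamond actions, and its matrix in the twisted bases
intertwines the specialised sides.
-/

set_option autoImplicit false

noncomputable section

open IsLocalRing GaloisRep FermatAgent.GaloisBasic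

namespace FermatAgent.RT.DiamondDatum

variable {𝒪 : Type} [CommRing 𝒪] [IsDomain 𝒪] [IsDiscreteValuationRing 𝒪]
  [IsAdicComplete (maximalIdeal 𝒪) 𝒪] [Finite (ResidueField 𝒪)]
variable {κ : Type} [Fintype κ] [DecidableEq κ] {m : κ → ℕ} [∀ i, NeZero (m i)]
variable {D : DefProblem 𝒪} {p s₁ s₂ : ℕ} [IsLocalRing (MonoidAlgebra 𝒪 (CycProd m))]

local notation "S" => MonoidAlgebra 𝒪 (CycProd m)

/-- A matrix intertwines the traces and determinants of two data. -/
structure Intertwines (H₁ : DiamondDatum D m p s₁) (H₂ : DiamondDatum D m p s₂)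
    (J : Matrix (Fin s₂) (Fin s₁) S) : Prop where
  t : ∀ g, J * H₁.Φ (H₁.td.t g) = H₂.Φ (H₂.td.t g) * J
  d : ∀ g, J * H₁.Φ (H₁.td.d g) = H₂.Φ (H₂.td.d g) * J

omit [DecidableEq κ] [IsAdicComplete (maximalIdeal 𝒪) 𝒪] in
/-- A high power of an element of the maximal ideal is small at a level. -/
lemma exists_pow_proj_eq_zero (H : DiamondDatum D m p s₁) (k : ℕ) {x : H.act.Img}
    (hx : x ∈ maximalIdeal H.act.Img) : ∃ N, H.proj k x ^ N = 0 := by
  have := H.finite_quotient (k + 1)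
  have := (H.actLevel k).test_img.isArtinian
  have : Finite (H.actLevel k).Img :=
    Finite.of_injective _ (H.actLevel k).incl_injective
  obtain ⟨N, hN⟩ := IsArtinianRing.isNilpotent_jacobson_bot (R := (H.actLevel k).Img)
  refine ⟨N, ?_⟩
  have hm : H.proj k x ∈ maximalIdeal (H.actLevel k).Img :=
    map_mem_maximalIdeal_of_finite (H.proj k).toRingHom hx
  have hj : (⊥ : Ideal (H.actLevel k).Img).jacobson = maximalIdeal (H.actLevel k).Img :=
    IsLocalRing.jacobson_eq_maximalIdeal ⊥ bot_ne_top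
  have h0 : H.proj k x ^ N ∈ (⊥ : Ideal (H.actLevel k).Img).jacobson ^ N :=
    Ideal.pow_mem_pow (hj.symm ▸ hm) N
  rw [hN] at h0
  exact (Submodule.mem_bot _).mp h0

omit [IsAdicComplete (maximalIdeal 𝒪) 𝒪] [Finite (ResidueField 𝒪)] [Fintype κ] [DecidableEq κ] in
lemma incl_proj (H : DiamondDatum D m p s₁) (k : ℕ) (x : H.act.Img) :
    (H.actLevel k).incl (H.proj k x) = (H.act.incl x).map (Ideal.Quotient.mk _) := by
  obtain ⟨a, rfl⟩ := Ideal.Quotient.mk_surjective x
  rfl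

variable {H₁ : DiamondDatum D m p s₁} {H₂ : DiamondDatum D m p s₂}
  {J : Matrix (Fin s₂) (Fin s₁) (MonoidAlgebra 𝒪 (CycProd m))}

/-- A pair intertwined by `J`. -/
def Pairs (H₁ : DiamondDatum D m p s₁) (H₂ : DiamondDatum D m p s₂)
    (J : Matrix (Fin s₂) (Fin s₁) S) (x : H₁.act.Img) (y : H₂.act.Img) : Prop :=
  J * H₁.act.incl x = H₂.act.incl y * J

variable {a a' : H₁.act.Img} {b b' : H₂.act.Img}

section

omit [IsAdicComplete (maximalIdeal 𝒪) 𝒪] [Finite (ResidueField 𝒪)] [Fintype κ] [DecidableEq κ]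

/-- Products of intertwined elements are intertwined. -/
lemma Pairs.mul (h : Pairs H₁ H₂ J a b) (h' : Pairs H₁ H₂ J a' b') :
    Pairs H₁ H₂ J (a * a') (b * b') := by
  unfold Pairs at *
  rw [map_mul, map_mul, ← Matrix.mul_assoc, h, Matrix.mul_assoc, h', Matrix.mul_assoc]

/-- Sums of intertwined elements are intertwined. -/
lemma Pairs.add (h : Pairs H₁ H₂ J a b) (h' : Pairs H₁ H₂ J a' b') :
    Pairs H₁ H₂ J (a + a') (b + b') := by
  unfold Pairs at *
  rw [map_add, map_add, Matrix.mul_add, Matrix.add_mul, h, h']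

/-- Differences of intertwined elements are intertwined. -/
lemma Pairs.sub (h : Pairs H₁ H₂ J a b) (h' : Pairs H₁ H₂ J a' b') :
    Pairs H₁ H₂ J (a - a') (b - b') := by
  unfold Pairs at *
  rw [map_sub, map_sub, Matrix.mul_sub, Matrix.sub_mul, h, h']

/-- Scalar multiples of intertwined elements are intertwined. -/
lemma Pairs.smul (o : 𝒪) (h : Pairs H₁ H₂ J a b) : Pairs H₁ H₂ J (o • a) (o • b) := by
  unfold Pairs at *
  rw [map_smul, map_smul, Matrix.mul_smul, Matrix.smul_mul, h]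

/-- The units of the two images are intertwined. -/
lemma Pairs.one : Pairs H₁ H₂ J (1 : H₁.act.Img) (1 : H₂.act.Img) := by
  unfold Pairs
  rw [map_one, map_one, Matrix.mul_one, Matrix.one_mul]

lemma Pairs.inv (h : Pairs H₁ H₂ J a b) (hx : a * a' = 1) (hy : b * b' = 1) :
    Pairs H₁ H₂ J a' b' := by
  unfold Pairs at *
  calc J * H₁.act.incl a' = H₂.act.incl b' * (H₂.act.incl b * J) * H₁.act.incl a' := by
        rw [← Matrix.mul_assoc (H₂.act.incl b'), ← map_mul, mul_comm, hy, map_one, Matrix.one_mul]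
    _ = H₂.act.incl b' * J := by
        rw [← h, Matrix.mul_assoc, Matrix.mul_assoc, ← map_mul, hx, map_one, Matrix.mul_one]

lemma Pairs.scalar (y : S) : Pairs H₁ H₂ J (scalarImg H₁ y) (scalarImg H₂ y) := by
  rw [Pairs, incl_scalarImg, incl_scalarImg, Algebra.algebraMap_eq_smul_one,
    Algebra.algebraMap_eq_smul_one, Matrix.mul_smul, Matrix.mul_one, Matrix.smul_mul,
    Matrix.one_mul]

end

namespace Intertwines

variable (hJ : Intertwines H₁ H₂ J) (A : TameAux p D.rbar)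
include hJ

omit [IsAdicComplete (maximalIdeal 𝒪) 𝒪] [Finite (ResidueField 𝒪)] [Fintype κ] [DecidableEq κ] in
/-- The traces at a group element are intertwined. -/
lemma mkT_t (g : GQ) : Pairs H₁ H₂ J (H₁.mkT (H₁.td.t g)) (H₂.mkT (H₂.td.t g)) := by
  rw [Pairs, incl_mkT, incl_mkT]; exact hJ.t g

omit [IsAdicComplete (maximalIdeal 𝒪) 𝒪] [Finite (ResidueField 𝒪)] [Fintype κ] [DecidableEq κ] in
lemma mkT_d (g : GQ) : Pairs H₁ H₂ J (H₁.mkT (H₁.td.d g)) (H₂.mkT (H₂.td.d g)) := by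
  rw [Pairs, incl_mkT, incl_mkT]; exact hJ.d g

section

omit [DecidableEq κ]

/-- **The Frobenius roots are intertwined.** -/
theorem auxRoot : Pairs H₁ H₂ J (H₁.auxRoot A) (H₂.auxRoot A) := by
  obtain ⟨s1, p1, m1, u1⟩ := H₁.auxRoot_spec A
  obtain ⟨s2, p2, m2, u2⟩ := H₂.auxRoot_spec A
  set a₁ := H₁.auxRoot A
  set a₂ := H₂.auxRoot A
  set b₂ := H₂.auxRoot' A
  set c₁ := algebraMap 𝒪 H₁.act.Img A.α₀
  set c₂ := algebraMap 𝒪 H₂.act.Img A.α₀
  -- the defect
  set Δ := H₂.act.incl a₂ * J - J * H₁.act.incl a₁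
  have ht : J * H₁.act.incl _ = H₂.act.incl _ * J := hJ.mkT_t A.F
  have hd : J * H₁.act.incl _ = H₂.act.incl _ * J := hJ.mkT_d A.F
  rw [← s1, ← s2] at ht
  rw [← p1, ← p2] at hd
  simp only [map_add, map_mul, Matrix.mul_add, Matrix.add_mul, Matrix.mul_assoc] at ht hd
  have hcomm : Δ * H₁.act.incl a₁ = H₂.act.incl b₂ * Δ := by
    have e1 : J * H₁.act.incl (H₁.auxRoot' A) =
        H₂.act.incl a₂ * J + H₂.act.incl b₂ * J - J * H₁.act.incl a₁ := by
      rw [← ht]; abel
    have hcomm1 : H₁.act.incl a₁ * H₁.act.incl (H₁.auxRoot' A) =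
        H₁.act.incl (H₁.auxRoot' A) * H₁.act.incl a₁ := by rw [← map_mul, ← map_mul, mul_comm]
    have hcomm2 : H₂.act.incl a₂ * H₂.act.incl b₂ = H₂.act.incl b₂ * H₂.act.incl a₂ := by
      rw [← map_mul, ← map_mul, mul_comm]
    rw [hcomm1, ← Matrix.mul_assoc J, e1, ← Matrix.mul_assoc (H₂.act.incl a₂), hcomm2] at hd
    simp only [Matrix.sub_mul, Matrix.add_mul, Matrix.mul_assoc, Δ, Matrix.mul_sub] at hd ⊢
    rw [← sub_eq_zero, ← sub_eq_zero.mpr hd]
    abel
  -- `a₁` is near the scalar and `b₂` is far from it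
  have hu : IsUnit (b₂ - c₂) := by
    by_contra hn
    refine (mem_maximalIdeal _).mp ?_ u2
    have := sub_mem m2 ((mem_maximalIdeal _).mpr hn)
    rwa [sub_sub_sub_cancel_right] at this
  obtain ⟨w, hw⟩ := hu.exists_left_inv
  have hrec : Δ = H₂.act.incl w * Δ * H₁.act.incl (a₁ - c₁) := by
    have hc : ∀ o : 𝒪, Δ * H₁.act.incl (algebraMap 𝒪 _ o) = H₂.act.incl (algebraMap 𝒪 _ o) * Δ :=
      fun o => by
        rw [AlgHom.commutes, AlgHom.commutes, Algebra.algebraMap_eq_smul_one,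
          Algebra.algebraMap_eq_smul_one, Matrix.mul_smul, Matrix.mul_one, Matrix.smul_mul,
          Matrix.one_mul]
    rw [Matrix.mul_assoc, map_sub, Matrix.mul_sub, hcomm, hc, ← Matrix.sub_mul, ← map_sub,
      ← Matrix.mul_assoc, ← map_mul, hw, map_one, Matrix.one_mul]
  have hit : ∀ N : ℕ, Δ = H₂.act.incl (w ^ N) * Δ * H₁.act.incl ((a₁ - c₁) ^ N) := by
    intro N
    induction N with
    | zero => simp
    | succ N ih =>
      conv_lhs => rw [ih, hrec]
      rw [pow_succ w, pow_succ' (a₁ - c₁), map_mul, map_mul]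
      simp only [Matrix.mul_assoc]
  rw [Pairs, ← sub_eq_zero]
  have hzero : Δ = 0 := by
    refine Matrix.ext fun i j => ?_
    have : Fact p.Prime := ⟨H₁.prime⟩
    have := GroupRing.isNoetherianRing (O := 𝒪) (Δ := CycProd m)
    refine eq_zero_of_forall_mem_pow fun k => Ideal.pow_le_pow_right k.le_succ ?_
    obtain ⟨N, hN⟩ := H₁.exists_pow_proj_eq_zero k m1
    rw [hit N]
    refine Ideal.Quotient.eq_zero_iff_mem.mp ?_
    rw [← Matrix.map_apply (f := Ideal.Quotient.mk (maximalIdeal S ^ (k + 1))), Matrix.map_mul,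
      ← H₁.incl_proj, map_pow (H₁.proj k), hN, map_zero, Matrix.mul_zero, Matrix.zero_apply]
  rw [← neg_eq_zero, neg_sub]
  exact hzero

lemma auxRoot' : Pairs H₁ H₂ J (H₁.auxRoot' A) (H₂.auxRoot' A) := by
  have h := (hJ.mkT_t A.F).sub (hJ.auxRoot A)
  rwa [← (H₁.auxRoot_spec A).1, ← (H₂.auxRoot_spec A).1, add_sub_cancel_left,
    add_sub_cancel_left] at h

/-- **The tame eigenvalues are intertwined.** -/
theorem auxEigen : Pairs H₁ H₂ J (H₁.auxEigen A) (H₂.auxEigen A) := by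
  have hw : Pairs H₁ H₂ J (H₁.auxInv A) (H₂.auxInv A) :=
    ((hJ.auxRoot A).sub (hJ.auxRoot' A)).inv (H₁.auxInv_spec A) (H₂.auxInv_spec A)
  rw [DiamondDatum.auxEigen, DiamondDatum.auxEigen, tameEigen, tameEigen]
  exact hw.mul ((hJ.mkT_t (A.τ * A.F)).sub ((hJ.auxRoot' A).mul (hJ.mkT_t A.τ)))

end

variable [CharZero 𝒪] (A₁ : H₁.AuxSet) (A₂ : H₂.AuxSet) (hsel : A₂.sel = A₁.sel)
  (haux : ∀ i (h₁ : i ∈ A₁.sel) (h₂ : i ∈ A₂.sel), A₁.aux ⟨i, h₁⟩ = A₂.aux ⟨i, h₂⟩)
include hsel haux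

/-- **The twisted diamond actions are intertwined.** -/
theorem theta (y : S) : J * theta A₁ y = theta A₂ y * J := by
  rw [theta_apply, theta_apply]
  show Pairs H₁ H₂ J (thetaImg A₁ y) (thetaImg A₂ y)
  induction y using MonoidAlgebra.induction_on with
  | of v =>
    induction v using cycProd_induction with
    | h1 =>
      rw [map_one (MonoidAlgebra.of 𝒪 (CycProd m)), map_one, map_one]
      exact Pairs.one
    | hmul a b ha hb =>
      rw [map_mul (MonoidAlgebra.of 𝒪 (CycProd m)), map_mul, map_mul]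
      exact ha.mul hb
    | hgen i =>
      rw [show MonoidAlgebra.of 𝒪 (CycProd m) (cycGen i) = cycX 𝒪 i from rfl, thetaImg_cycX,
        thetaImg_cycX, genImg, genImg]
      by_cases h : i ∈ A₁.sel
      · rw [dif_pos h, dif_pos (hsel ▸ h), ← haux i h (hsel ▸ h)]
        exact hJ.auxEigen _
      · rw [dif_neg h, dif_neg (hsel ▸ h)]
        exact Pairs.scalar _
  | add a b ha hb =>
    rw [map_add, map_add]
    exact ha.add hb
  | smul o a ha =>
    rw [map_smul, map_smul]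
    exact ha.smul o

/-- The matrix in the twisted bases. -/
def new : Matrix (Fin s₂) (Fin s₁) S :=
  TwistMod.newRect (coords_theta_surjective A₁) (coords_theta_surjective A₂) J
    (hJ.theta A₁ A₂ hsel haux)

/-- An intertwined pair passes to the twisted bases. -/
lemma new_comm {x : H₁.act.Img} {y : H₂.act.Img} (h : Pairs H₁ H₂ J (x) (y)) :
    hJ.new A₁ A₂ hsel haux * newPhi A₁ x = newPhi A₂ y * hJ.new A₁ A₂ hsel haux :=
  TwistMod.newRect_comm _ _ J _ (inclCent A₁ x) (inclCent A₂ y) h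

/-- The specialised sides are intertwined. -/
lemma side_comm {B : Type} [CommRing B] [Algebra 𝒪 B] (φ : S →ₐ[𝒪] B)
    (g : GQ) :
    (hJ.new A₁ A₂ hsel haux).map φ * (sideAction A₁ φ).Φ (H₁.td.t g) =
      (sideAction A₂ φ).Φ (H₂.td.t g) * (hJ.new A₁ A₂ hsel haux).map φ := by
  have h := congrArg (fun X => X.map (φ : S →+* B))
    (hJ.new_comm A₁ A₂ hsel haux (hJ.mkT_t g))
  simp only [Matrix.map_mul, RingHom.coe_coe] at h
  rw [sideAction_Φ, sideAction_Φ]
  exact h

end Intertwines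

variable [CharZero 𝒪]

namespace Intertwines

variable (hJ : Intertwines H₁ H₂ J) (A₁ : H₁.AuxSet) (A₂ : H₂.AuxSet) (hsel : A₂.sel = A₁.sel)
  (haux : ∀ i (h₁ : i ∈ A₁.sel) (h₂ : i ∈ A₂.sel), A₁.aux ⟨i, h₁⟩ = A₂.aux ⟨i, h₂⟩)

/-- Modulo the augmentation the matrix is unchanged. -/
theorem new_map_aug :
    (hJ.new A₁ A₂ hsel haux).map (GroupRing.aug 𝒪 (CycProd m) : MonoidAlgebra 𝒪 (CycProd m) →+* 𝒪) =
      J.map (GroupRing.aug 𝒪 (CycProd m) : MonoidAlgebra 𝒪 (CycProd m) →+* 𝒪) :=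
  TwistMod.newRect_map _ _ _ (theta_map_aug A₂) J _

/-- The composite with a map back. -/
theorem new_mul_new {J' : Matrix (Fin s₁) (Fin s₂) (MonoidAlgebra 𝒪 (CycProd m))}
    (hJ' : Intertwines H₂ H₁ J') {e : H₁.act.Img} (he : J' * J = H₁.act.incl e) :
    hJ'.new A₂ A₁ hsel.symm (fun i h h' => (haux i h' h).symm) * hJ.new A₁ A₂ hsel haux =
      newPhi A₁ e := by
  have hJJ : ∀ y, (J' * J) * DiamondDatum.theta A₁ y = DiamondDatum.theta A₁ y * (J' * J) :=
    fun y => by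
    rw [he]
    exact ((inclCent A₁ e).2 _ ⟨y, rfl⟩).symm
  rw [new, new, TwistMod.newRect_mul _ _ _ _ _ _ _ hJJ]
  refine TwistMod.ext_of_coords (coords_theta_surjective A₁) fun c => ?_
  rw [TwistMod.newRect_mulVec, newPhi, AlgHom.comp_apply, TwistMod.newMat_mulVec]
  obtain ⟨v, hv⟩ := (TwistMod.of (DiamondDatum.theta A₁)).surjective
    (TwistMod.coords (DiamondDatum.theta A₁) c)
  rw [← hv, TwistMod.opHom_of]
  show TwistMod.of (DiamondDatum.theta A₁) ((J' * J).mulVec v) = _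
  rw [he]
  rfl

end Intertwines

end FermatAgent.RT.DiamondDatum
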