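import Mathlib
import Fermat.Agent.RT.Tower.Datum

/-!
# Maps from the universal ring to intertwined sides

The map from the universal ring to a specialised Hecke algebra is compatible with the maps induced
by intertwiners.
-/

set_option autoImplicit false

noncomputable section

open IsLocalRing GaloisRep FermatAgent.GaloisBasic

namespace FermatAgent.RT.DiamondDatum

variable {𝒪 : Type} [CommRing 𝒪] [IsDomain 𝒪] [IsDiscreteValuationRing 𝒪]
  [IsAdicComplete (maximalIdeal 𝒪) 𝒪] [Finite (ResidueField 𝒪)] [CharZero 𝒪]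
variable {κ : Type} [Fintype κ] [DecidableEq κ] {m : κ → ℕ} [∀ i, NeZero (m i)]
variable {D : DefProblem 𝒪} {p : ℕ} [IsLocalRing (MonoidAlgebra 𝒪 (CycProd m))]
variable {B : Type} [CommRing B] [Algebra 𝒪 B] [Finite B] [Nontrivial B]
  (φ : MonoidAlgebra 𝒪 (CycProd m) →ₐ[𝒪] B)

namespace Intertwines

variable {s₁ s₂ : ℕ} {H₁ : DiamondDatum D m p s₁} {H₂ : DiamondDatum D m p s₂}
  {J : Matrix (Fin s₂) (Fin s₁) (MonoidAlgebra 𝒪 (CycProd m))}

omit [Nontrivial B] in
/-- **The map between sides is compatible with the maps of the universal ring.** -/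
theorem sideHom_comp (hJ : Intertwines H₁ H₂ J) (A₁ : H₁.AuxSet) (A₂ : H₂.AuxSet)
    (ψ : (sideAction A₂ φ).Img →ₐ[𝒪] (sideAction A₁ φ).Img)
    (hψ : ∀ x y, Pairs H₁ H₂ J x y → ψ (sideProj A₂ φ y) = sideProj A₁ φ x)
    {c : GQ} (hc : c * c = 1) (htc : (D.univMat c).trace = 0)
    (fT₁ : D.UR →ₐ[𝒪] (sideAction A₁ φ).Img)
    (h₁ : ∀ g, fT₁ (D.univMat g).trace = Ideal.Quotient.mk _ (H₁.td.t g))
    (fT₂ : D.UR →ₐ[𝒪] (sideAction A₂ φ).Img)
    (h₂ : ∀ g, fT₂ (D.univMat g).trace = Ideal.Quotient.mk _ (H₂.td.t g)) :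
    ψ.comp fT₂ = fT₁ :=
  algHom_ext_of_trace D H₁.two_half H₁.span hc htc _ _ fun g => by
    rw [AlgHom.comp_apply, h₁, h₂]
    exact hψ _ _ (hJ.mkT_t g)

end Intertwines

end FermatAgent.RT.DiamondDatum

end
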