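import Mathlib
import Fermat.Agent.RT.Intertwine.Diamond
import Fermat.Agent.RT.Cond.Basic
import Fermat.Agent.RT.Cond.Transfer
import Fermat.Agent.RT.Traces

/-!
# Conditions pass down along intertwiners

An intertwiner which is injective modulo the maximal ideal, with a counterpart below for every
element of the upper algebra, gives a map from the upper specialised Hecke algebra to the lower one
respecting traces and determinants.  Conditions on matrices pass from the upper lifts to the lower.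
-/

set_option autoImplicit false

noncomputable section

open IsLocalRing GaloisRep FermatAgent.GaloisBasic Matrix

namespace FermatAgent.RT

namespace DiamondDatum

section Spec

variable {𝒪 : Type} [CommRing 𝒪] [IsDomain 𝒪] [IsDiscreteValuationRing 𝒪]
  [IsAdicComplete (maximalIdeal 𝒪) 𝒪] [Finite (ResidueField 𝒪)] [CharZero 𝒪]
variable {κ : Type} [Fintype κ] [DecidableEq κ] {m : κ → ℕ} [∀ i, NeZero (m i)]
variable {D : DefProblem 𝒪} {p s : ℕ} [IsLocalRing (MonoidAlgebra 𝒪 (CycProd m))]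
variable {H : DiamondDatum D m p s} (A : H.AuxSet) {r n : ℕ} {e : Fin r ≃ {j // j ∈ A.sel}}
  (hdepth : ∀ j : {j // j ∈ A.sel}, p ^ (n + 1) ≤ m j.1) {z : κ → 𝒪}
  (hz : ∀ i, i ∉ A.sel → z i ^ m i = 1)
  [IsLocalRing (PatchBase 𝒪 r ⧸ maximalIdeal (PatchBase 𝒪 r) ^ (n + 1))]

omit [IsAdicComplete (maximalIdeal 𝒪) 𝒪] [Finite (ResidueField 𝒪)] [CharZero 𝒪] [Fintype κ]
    [DecidableEq κ] in
/-- A root of unity of `p`-power order is residually one. -/
lemma residue_root_eq_one (H : DiamondDatum D m p s) {i : κ} {x : 𝒪} (hx : x ^ m i = 1) :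
    residue 𝒪 x = 1 := by
  obtain ⟨k, hk⟩ := H.pow_m i
  have : Fact p.Prime := ⟨H.prime⟩
  have : CharP (ResidueField 𝒪) p :=
    (CharP.charP_iff_prime_eq_zero H.prime).mpr (by
      rw [← map_natCast (residue 𝒪)]; exact (residue_eq_zero_iff _).mpr H.p_mem)
  have h1 := congrArg (residue 𝒪) hx
  rw [map_pow, map_one, hk] at h1
  have : ExpChar (ResidueField 𝒪) p := ExpChar.prime H.prime
  exact iterateFrobenius_inj (ResidueField 𝒪) p k (by rw [iterateFrobenius_def,
    iterateFrobenius_def, h1, one_pow])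

omit [IsAdicComplete (maximalIdeal 𝒪) 𝒪] [CharZero 𝒪] in
/-- A specialisation reduces to the augmentation modulo the maximal ideal. -/
theorem spec_sub_aug_mem (y : MonoidAlgebra 𝒪 (CycProd m)) :
    spec A (e := e) hdepth z hz y -
      algebraMap 𝒪 _ (GroupRing.aug 𝒪 (CycProd m) y) ∈
        maximalIdeal (PatchBase 𝒪 r ⧸ maximalIdeal (PatchBase 𝒪 r) ^ (n + 1)) := by
  set R := PatchBase 𝒪 r ⧸ maximalIdeal (PatchBase 𝒪 r) ^ (n + 1)
  have h : (Ideal.Quotient.mkₐ 𝒪 (maximalIdeal R)).comp (spec A (e := e) hdepth z hz) =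
      ((Ideal.Quotient.mkₐ 𝒪 (maximalIdeal R)).comp (Algebra.ofId 𝒪 R)).comp
        (GroupRing.aug 𝒪 (CycProd m)) := by
    refine cycAlgHom_ext fun i => ?_
    have h1 : GroupRing.aug 𝒪 (CycProd m) (cycX 𝒪 i) = 1 := GroupRing.aug_of _
    simp only [AlgHom.comp_apply, h1, map_one]
    rw [← map_one (Ideal.Quotient.mkₐ 𝒪 (maximalIdeal R))]
    refine Ideal.Quotient.eq.mpr ?_
    rw [show spec A (e := e) hdepth z hz (cycX 𝒪 i) = specVal A e n z i
      from spec_cycX A hdepth hz i,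
      specVal]
    split_ifs with hi
    · rw [add_sub_cancel_left]
      refine map_mem_maximalIdeal_of_finite (Ideal.Quotient.mk _) ?_
      rw [mem_maximalIdeal_iff_constantCoeff]; simp
    · rw [← map_one (algebraMap 𝒪 R), ← map_sub]
      refine map_mem_maximalIdeal_of_finite (algebraMap 𝒪 R) ?_
      rw [← residue_eq_zero_iff, map_sub, map_one, residue_root_eq_one H (hz i hi), sub_self]
  exact Ideal.Quotient.eq.mp (AlgHom.congr_fun h y)

end Spec

end DiamondDatum

namespace DiamondDatum.Intertwines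

variable {𝒪 : Type} [CommRing 𝒪] [IsDomain 𝒪] [IsDiscreteValuationRing 𝒪]
  [IsAdicComplete (maximalIdeal 𝒪) 𝒪] [Finite (ResidueField 𝒪)] [CharZero 𝒪]
variable {κ : Type} [Fintype κ] [DecidableEq κ] {m : κ → ℕ} [∀ i, NeZero (m i)]
variable {D : DefProblem 𝒪} {p s₁ s₂ : ℕ} [IsLocalRing (MonoidAlgebra 𝒪 (CycProd m))]
variable {H₁ : DiamondDatum D m p s₁} {H₂ : DiamondDatum D m p s₂}
  {J : Matrix (Fin s₂) (Fin s₁) (MonoidAlgebra 𝒪 (CycProd m))}
  (hJ : Intertwines H₁ H₂ J) (A₁ : H₁.AuxSet) (A₂ : H₂.AuxSet) (hsel : A₂.sel = A₁.sel)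
  (haux : ∀ i (h₁ : i ∈ A₁.sel) (h₂ : i ∈ A₂.sel), A₁.aux ⟨i, h₁⟩ = A₂.aux ⟨i, h₂⟩)
  (hinj : ∀ x : Fin s₁ → 𝒪, (∀ i, (J.map (GroupRing.aug 𝒪 (CycProd m)) *ᵥ x) i ∈ maximalIdeal 𝒪) →
    ∀ i, x i ∈ maximalIdeal 𝒪)
variable {B : Type} [CommRing B] [IsLocalRing B] [Algebra 𝒪 B] [Finite B]
  (φ : MonoidAlgebra 𝒪 (CycProd m) →ₐ[𝒪] B)
  (hφ : ∀ y, φ y - algebraMap 𝒪 B (GroupRing.aug 𝒪 (CycProd m) y) ∈ maximalIdeal B)

include hinj hφ in
/-- The specialised matrix has a retraction. -/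
theorem exists_retraction :
    ∃ L : Matrix (Fin s₁) (Fin s₂) B, L * (hJ.new A₁ A₂ hsel haux).map φ = 1 := by
  classical
  set Ja := J.map (GroupRing.aug 𝒪 (CycProd m))
  obtain ⟨L₀, hLJ⟩ := exists_map_mul_eq_one_of_injective Ja hinj
  set Jb := (hJ.new A₁ A₂ hsel haux).map φ
  set Y := L₀.map (algebraMap 𝒪 B) * Jb
  have hJb : Jb.map (residue B) = (Ja.map (algebraMap 𝒪 B)).map (residue B) := by
    ext i j
    simp only [Jb, Matrix.map_apply]
    rw [← sub_eq_zero, ← map_sub, residue_eq_zero_iff]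
    have h1 := hφ (hJ.new A₁ A₂ hsel haux i j)
    have h2 := congrFun (congrFun (hJ.new_map_aug A₁ A₂ hsel haux) i) j
    simp only [Matrix.map_apply, RingHom.coe_coe] at h2
    rwa [h2] at h1
  have hY : Y.map (residue B) = 1 := by
    rw [show Y = L₀.map (algebraMap 𝒪 B) * Jb from rfl, Matrix.map_mul, hJb,
      ← Matrix.map_mul, ← Matrix.map_mul]
    ext i j
    have h3 := congrFun (congrFun hLJ i) j
    rw [Matrix.map_apply] at h3
    rw [Matrix.map_apply, Matrix.map_apply]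
    have h4 : residue 𝒪 ((L₀ * Ja) i j - if i = j then 1 else 0) = 0 := by
      rw [map_sub, h3, Matrix.one_apply, apply_ite (residue 𝒪), map_one, map_zero, sub_self]
    have h5 := map_mem_maximalIdeal_of_finite (algebraMap 𝒪 B) ((residue_eq_zero_iff _).mp h4)
    rw [← residue_eq_zero_iff, map_sub, map_sub, sub_eq_zero] at h5
    rw [h5, apply_ite (algebraMap 𝒪 B), apply_ite (residue B), map_one, map_one, map_zero, map_zero,
      Matrix.one_apply]
  exact ⟨Y⁻¹ * L₀.map (algebraMap 𝒪 B),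
    by rw [Matrix.mul_assoc]; exact Matrix.nonsing_inv_mul _ (isUnit_det_of_map_residue hY)⟩

include hJ hsel haux hinj hφ in
/-- **The map of specialised Hecke algebras.** -/
theorem exists_sideHom (hsurj : ∀ y, ∃ x, Pairs H₁ H₂ J x y) :
    ∃ ψ : (sideAction A₂ φ).Img →ₐ[𝒪] (sideAction A₁ φ).Img,
      ∀ x y, Pairs H₁ H₂ J x y → ψ (sideProj A₂ φ y) = sideProj A₁ φ x := by
  classical
  obtain ⟨L, hL⟩ := hJ.exists_retraction A₁ A₂ hsel haux hinj φ hφ
  set Jb := (hJ.new A₁ A₂ hsel haux).map φ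
  have hc : ∀ {x y}, Pairs H₁ H₂ J x y →
      Jb * (sideAction A₁ φ).incl (sideProj A₁ φ x) =
        (sideAction A₂ φ).incl (sideProj A₂ φ y) * Jb := fun {x y} h => by
    have e := congrArg (fun X => X.map (φ : MonoidAlgebra 𝒪 (CycProd m) →+* B))
      (hJ.new_comm A₁ A₂ hsel haux h)
    simp only [Matrix.map_mul, RingHom.coe_coe] at e
    rw [incl_sideProj, incl_sideProj]
    exact e
  have hdet : ∀ {x y}, Pairs H₁ H₂ J x y → (sideAction A₁ φ).incl (sideProj A₁ φ x) =
      L * (sideAction A₂ φ).incl (sideProj A₂ φ y) * Jb := fun {x y} h => by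
    rw [Matrix.mul_assoc, ← hc h, ← Matrix.mul_assoc, hL, Matrix.one_mul]
  have hp₂ : Function.Surjective (sideProj A₂ φ) := fun z => by
    obtain ⟨a, rfl⟩ := Ideal.Quotient.mk_surjective z
    exact ⟨H₂.mkT a, rfl⟩
  choose Y hY using hp₂
  choose X hX using hsurj
  let f : (sideAction A₂ φ).Img → (sideAction A₁ φ).Img := fun z => sideProj A₁ φ (X (Y z))
  have hf : ∀ {x y}, Pairs H₁ H₂ J x y → f (sideProj A₂ φ y) = sideProj A₁ φ x := fun {x y} h =>
    (sideAction A₁ φ).incl_injective (by rw [hdet (hX _), hdet h, hY])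
  have hp : ∀ z, ∃ x y, Pairs H₁ H₂ J x y ∧ sideProj A₂ φ y = z := fun z =>
    ⟨_, _, hX (Y z), hY z⟩
  let g : (sideAction A₂ φ).Img →+* (sideAction A₁ φ).Img :=
    { toFun := f
      map_one' := by rw [← map_one (sideProj A₂ φ), hf Pairs.one, map_one]
      map_mul' := fun a b => by
        obtain ⟨x, y, h, rfl⟩ := hp a
        obtain ⟨x', y', h', rfl⟩ := hp b
        rw [← map_mul, hf (h.mul h'), hf h, hf h', map_mul]
      map_zero' := by
        rw [← map_zero (sideProj A₂ φ), ← sub_self (1 : H₂.act.Img), hf (Pairs.one.sub Pairs.one),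
          sub_self, map_zero]
      map_add' := fun a b => by
        obtain ⟨x, y, h, rfl⟩ := hp a
        obtain ⟨x', y', h', rfl⟩ := hp b
        rw [← map_add, hf (h.add h'), hf h, hf h', map_add] }
  refine ⟨{ g with commutes' := fun o => ?_ }, fun x y h => hf h⟩
  show f (algebraMap 𝒪 _ o) = _
  rw [← AlgHom.commutes (sideProj A₂ φ), ← AlgHom.commutes (sideProj A₁ φ),
    Algebra.algebraMap_eq_smul_one, Algebra.algebraMap_eq_smul_one]
  exact hf (Pairs.one.smul o)

include hJ hinj hφ hsel haux in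
/-- **A condition on the upper lifts holds for the lower lifts.** -/
theorem matCond_pushdown (hsurj : ∀ y, ∃ x, Pairs H₁ H₂ J x y) {k : ℕ} (hk : (p : B) ^ k = 0)
    (X : MatCond 𝒪)
    (hX : ∀ M₂ : MatRep (sideAction A₂ φ).Img, HasResidual D.rbar M₂ →
      (∀ g, (M₂ g).trace = Ideal.Quotient.mk _ (H₂.td.t g)) →
      (∀ g, (M₂ g).det = Ideal.Quotient.mk _ (H₂.td.d g)) → X.P M₂)
    {M : MatRep (sideAction A₁ φ).Img} (hres : HasResidual D.rbar M)
    (htr : ∀ g, (M g).trace = Ideal.Quotient.mk _ (H₁.td.t g)) : X.P M := by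
  obtain ⟨ψ, hψ⟩ := hJ.exists_sideHom A₁ A₂ hsel haux hinj φ hφ hsurj
  have := (sideAction A₁ φ).test_img.isArtinian
  have := (sideAction A₂ φ).test_img.isArtinian
  have := isLocalHom_of_isArtinian (sideAction A₁ φ).Img ψ
  have htc₂ : (sideAction A₂ φ).Φ (H₂.td.t H₂.c) = 0 := by
    rw [sideAction_Φ, show H₂.mkT (H₂.td.t H₂.c) = 0 from
      H₂.act.incl_injective (by rw [incl_mkT, H₂.t_c, map_zero]), map_zero,
      Matrix.map_zero _ (map_zero φ)]
  obtain ⟨L, hL, hcont⟩ := side_cont A₂ φ hk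
  obtain ⟨M₂, -, hres₂, hn₂, htr₂, hdet₂⟩ := exists_normal_lift (A := (sideAction A₂ φ).Img)
    D.nd H₂.span
    (H₂.td.push (Ideal.Quotient.mk _)) (half := algebraMap 𝒪 _ H₂.half)
    (by rw [← map_ofNat (algebraMap 𝒪 (sideAction A₂ φ).Img) 2, ← map_mul, H₂.two_half, map_one])
    H₂.c_sq
    ((sideAction A₂ φ).incl_injective (by rw [map_zero]; exact htc₂))
    (fun g => (sideAction A₂ φ).residue_eq_of_res (x := Ideal.Quotient.mk _ (H₂.td.t g)) (H₂.res g))
    L hL
    (fun σ hσ g => (sideAction A₂ φ).incl_injective (hcont σ hσ g))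
  set M' := mapRep (ψ : (sideAction A₂ φ).Img →+* (sideAction A₁ φ).Img) M₂
  have hres' : HasResidual D.rbar M' := hres₂.map ψ
  have htr' : ∀ g, (M' g).trace = Ideal.Quotient.mk _ (H₁.td.t g) := fun g => by
    show ((M₂ g).map ψ).trace = sideProj A₁ φ (H₁.mkT (H₁.td.t g))
    rw [← hψ _ _ (hJ.mkT_t g)]
    refine ((AddMonoidHom.map_trace (ψ : (sideAction A₂ φ).Img →+*
      (sideAction A₁ φ).Img).toAddMonoidHom _).symm).trans ?_
    exact congrArg ψ (htr₂ g)
  have hP' : X.P M' := X.map (sideAction A₂ φ).test_img (sideAction A₁ φ).test_img ψ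
    (hX M₂ hres₂ htr₂ hdet₂)
  -- continuity of the lift below
  obtain ⟨L₁, hL₁, hcont₁⟩ := side_cont A₁ φ hk
  have hM : MatContinuous (sideAction A₁ φ).Img M :=
    (matContinuous_iff_of_isArtinian M).mpr ⟨L₁, hL₁, fun σ hσ =>
    eq_one_of_trace_invariant (by
      simpa only [show ∀ g, (M g).map (residue (sideAction A₁ φ).Img) =
        (D.rbar g).map (iotaRes (sideAction A₁ φ).Img) from DFunLike.congr_fun hres] using
        span_map_eq_top H₁.span (iotaRes (sideAction A₁ φ).Img))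
      fun g => by
        rw [htr, htr]
        exact (sideAction A₁ φ).incl_injective (hcont₁ σ hσ g)⟩
  have hrconj : MatConj (mapRep (residue (sideAction A₁ φ).Img) M)
      (mapRep (iotaRes (sideAction A₁ φ).Img) D.rbar) :=
    ⟨1, fun g => by rw [hres]; simp⟩
  have : IsAdicComplete (maximalIdeal (sideAction A₁ φ).Img) (sideAction A₁ φ).Img := inferInstance
  obtain ⟨N, hconj, -, hNr, hNn⟩ := exists_normalised D.nd hM hrconj
  obtain ⟨U, hU⟩ := hconj
  have htrN : ∀ g, (N g).trace = (M' g).trace := fun g => by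
    rw [hU, Matrix.trace_mul_comm, ← mul_assoc, U.inv_mul, one_mul, htr, htr']
  have h2 : IsUnit (2 : (sideAction A₁ φ).Img) := IsUnit.of_mul_eq_one (algebraMap 𝒪 _ H₁.half) (by
    rw [← map_ofNat (algebraMap 𝒪 (sideAction A₁ φ).Img) 2, ← map_mul, H₁.two_half, map_one])
  have hNM : N = M' := eq_of_trace_eq D.nd h2 H₁.span hNr hres' hNn (hn₂.map ψ) htrN
  exact X.conj (sideAction A₁ φ).test_img (MatConj.symm (⟨U, hU⟩ : MatConj M N)) (hNM ▸ hP')

end DiamondDatum.Intertwines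

end FermatAgent.RT

end
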